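import Mathlib
import Fermat.Agent.ProgramR.Analytic.DictionaryOrd
import Fermat.Agent.S48lib.X1.Wp.ChartGen

/-!
S48lib / X1 / Chart / Fin (helper9, block P3).

The dictionary at the FINITE places for a subgroup `Γ ≤ SL(2,ℤ)` of finite index containing `-1`,
with a separating function (`hs : Wp.Separates Γ h₀`, helper7) and acting FREELY modulo `±1` on `ℍ`
(`TorsionFree Γ`): the height one primes of `WH0 Γ` are the points of `Γ \ ℍ`, and the `P`-adic
order is the analytic order (no ramification index, PARAM port of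
`ProgramR/Analytic/Gamma0Dict.exists_prime_ordAt_eq / exists_point_ordAt_eq`).
-/

set_option autoImplicit false
set_option linter.unusedSectionVars false
set_option linter.style.haveILetI false

noncomputable section

open Polynomial IsDedekindDomain UpperHalfPlane
open scoped MatrixGroups ModularGroup
open Fermat.Agent.ProgramR

namespace Fermat.Agent.S48lib.X1.Chart

/-- `Γ` acts freely modulo `±1` on the upper half plane. -/
def TorsionFree (Γ : Subgroup SL(2, ℤ)) : Prop :=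
  ∀ γ ∈ Γ, ∀ z : ℍ, γ • z = z → γ = 1 ∨ γ = -1

variable {Γ : Subgroup SL(2, ℤ)}

/-- under `TorsionFree`, the orbit of a coset under the stabilizer of `z₀` has full size. -/
theorem card_orbit_eq_jOrder (hneg : (-1 : SL(2, ℤ)) ∈ Γ) (htf : TorsionFree Γ) (z₀ : ℍ)
    (g : SL(2, ℤ)) :
    Nat.card (MulAction.orbit (MulAction.stabilizer SL(2, ℤ) z₀)
      (QuotientGroup.mk g : SL(2, ℤ) ⧸ Γ)) = LevelOne.jOrder z₀ := by
  classical
  set x : SL(2, ℤ) ⧸ Γ := QuotientGroup.mk g with hx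
  set H := MulAction.stabilizer SL(2, ℤ) z₀ with hH
  have hcardH : Nat.card H = 2 * LevelOne.jOrder z₀ := LevelOne.card_stabilizer z₀
  have hpos : 0 < LevelOne.jOrder z₀ := by
    rcases jOrder_cases z₀ with h | h | h <;> omega
  haveI : Finite H := Nat.finite_of_card_ne_zero (by rw [hcardH]; omega)
  letI : Fintype H := Fintype.ofFinite H
  haveI : Finite (MulAction.orbit H x) := (Set.finite_range (fun h : H => h • x)).to_subtype
  letI : Fintype (MulAction.orbit H x) := Fintype.ofFinite _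
  letI : Fintype (MulAction.stabilizer H x) := Fintype.ofFinite _
  have hos := MulAction.card_orbit_mul_card_stabilizer_eq_card_group H x
  rw [← Nat.card_eq_fintype_card, ← Nat.card_eq_fintype_card, ← Nat.card_eq_fintype_card,
    hcardH] at hos
  have hinvneg : ∀ a : SL(2, ℤ), (-1 * a)⁻¹ * a = -1 := by
    intro a
    rw [neg_one_mul]
    have : (-a)⁻¹ = -a⁻¹ := by
      rw [inv_eq_iff_eq_inv]; simp
    rw [this]; simp
  -- the element `-1`
  let n1 : H := ⟨-1, by
    rw [MulAction.mem_stabilizer_iff, ModularGroup.SL_neg_smul, one_smul]⟩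
  have hn1x : n1 ∈ MulAction.stabilizer H x := by
    rw [MulAction.mem_stabilizer_iff]
    change ((-1 : SL(2, ℤ)) • (QuotientGroup.mk g : SL(2, ℤ) ⧸ Γ)) = QuotientGroup.mk g
    rw [MulAction.Quotient.smul_mk, QuotientGroup.eq, smul_eq_mul, hinvneg]
    exact hneg
  let n1' : MulAction.stabilizer H x := ⟨n1, hn1x⟩
  have hne : (1 : MulAction.stabilizer H x) ≠ n1' := by
    intro h
    have h1 : (1 : SL(2, ℤ)) = -1 := congrArg Subtype.val (congrArg Subtype.val h)
    exact absurd h1 (by decide)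
  have hall : ∀ δ : MulAction.stabilizer H x, δ = 1 ∨ δ = n1' := by
    rintro ⟨⟨δ, hδz⟩, hδx⟩
    rw [MulAction.mem_stabilizer_iff] at hδz hδx
    have h1 : (δ • (QuotientGroup.mk g : SL(2, ℤ) ⧸ Γ)) = QuotientGroup.mk g := hδx
    rw [MulAction.Quotient.smul_mk, QuotientGroup.eq, smul_eq_mul] at h1
    -- `(δ g)⁻¹ g = g⁻¹ δ⁻¹ g ∈ Γ` fixes `g⁻¹ z₀`
    have h2 : ((δ * g)⁻¹ * g) • (g⁻¹ • z₀) = g⁻¹ • z₀ := by
      rw [← mul_smul]
      have : (δ * g)⁻¹ * g * g⁻¹ = g⁻¹ * δ⁻¹ := by group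
      rw [this, mul_smul]
      congr 1
      rw [inv_smul_eq_iff, hδz]
    have hδ' : δ = g * ((δ * g)⁻¹ * g)⁻¹ * g⁻¹ := by group
    rcases htf _ h1 _ h2 with h3 | h3
    · left
      apply Subtype.ext
      apply Subtype.ext
      change δ = 1
      rw [hδ', h3]
      group
    · right
      apply Subtype.ext
      apply Subtype.ext
      change δ = -1
      rw [hδ', h3]
      have : ((-1 : SL(2, ℤ)))⁻¹ = -1 := by
        rw [inv_eq_iff_eq_inv]; simp
      rw [this, mul_neg, mul_one, neg_mul, mul_inv_cancel]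
  have hcard2 : Nat.card (MulAction.stabilizer H x) = 2 := by
    rw [Nat.card_eq_two_iff]
    refine ⟨1, n1', hne, ?_⟩
    ext δ
    simp only [Set.mem_insert_iff, Set.mem_singleton_iff, Set.mem_univ, iff_true]
    exact hall δ
  rw [hcard2] at hos
  omega

section Dict

variable [Fintype (SL(2, ℤ) ⧸ Γ)] {h₀ : WH0 Γ} (hs : Wp.Separates Γ h₀)
  {L : Type*} [Field L] [Algebra (WH0 Γ) L] [IsFractionRing (WH0 Γ) L]

include hs in
/-- **(Dfin')**: at every point `z` the analytic order is the `P_z`-adic order,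
`P_z = {h | h z = 0}`. -/
theorem exists_prime_ordAt_eq (hneg : (-1 : SL(2, ℤ)) ∈ Γ) (htf : TorsionFree Γ) (z : ℍ) :
    ∃ P : HeightOneSpectrum (WH0 Γ), (∀ h : WH0 Γ, h ∈ P.asIdeal ↔ h.1 z = 0) ∧
      ∀ a : WH0 Γ, a ≠ 0 → Hol.ordAt z (WH0.toHol Γ a) =
        (((Alg.ordV P (algebraMap (WH0 Γ) L a)).toNat : ℕ) : ℕ∞) := by
  set A := Wp.wh0Chart hs
  have hp0 := A.base_ne_bot z (LevelOne.jInv z) rfl
  let P : HeightOneSpectrum (WH0 Γ) :=
    ⟨A.center z (QuotientGroup.mk 1), (A.centerData z).center_isPrime _,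
      (A.centerData z).center_ne_bot hp0 _⟩
  obtain ⟨t, htpos, htO, ht⟩ := A.ordAt_eq_mul_ordV (L := L) (Wp.card_eq_finrank_of_separates hs)
    hneg z (LevelOne.jInv z) rfl 1 P rfl
  rw [card_orbit_eq_jOrder hneg htf] at htO
  have hpos : 0 < LevelOne.jOrder z := by
    rcases jOrder_cases z with h | h | h <;> omega
  have ht1 : t = 1 := by
    have : t * LevelOne.jOrder z = 1 * LevelOne.jOrder z := by rw [htO, one_mul]
    exact Nat.eq_of_mul_eq_mul_right hpos this
  refine ⟨P, ?_, ?_⟩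
  · intro h
    change h ∈ A.center z (QuotientGroup.mk 1) ↔ _
    rw [A.mem_center_mk]
    simp only [inv_one, one_smul]
    rfl
  · intro a ha
    have := ht a ha
    rw [Wp.wh0Chart_ev, ht1, one_mul] at this
    simpa using this

include hs in
/-- **(Dfin)**: every prime of `WH0 Γ` is `P_z` for some `z`, with the order formula. -/
theorem exists_point_ordAt_eq (hneg : (-1 : SL(2, ℤ)) ∈ Γ) (htf : TorsionFree Γ)
    (P : HeightOneSpectrum (WH0 Γ)) :
    ∃ z : ℍ, (∀ h : WH0 Γ, h ∈ P.asIdeal ↔ h.1 z = 0) ∧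
      ∀ a : WH0 Γ, a ≠ 0 → Hol.ordAt z (WH0.toHol Γ a) =
        (((Alg.ordV P (algebraMap (WH0 Γ) L a)).toNat : ℕ) : ℕ∞) := by
  set A := Wp.wh0Chart hs
  haveI := P.isPrime
  obtain ⟨c, hc⟩ := exists_X_sub_C_mem (k := ℂ) P.asIdeal P.ne_bot
  obtain ⟨z₀, hz⟩ := LevelOne.jInv_surjective c
  obtain ⟨g, hPg, t, htpos, htO, ht⟩ := A.exists_ordAt_eq_mul_ordV (L := L)
    (Wp.card_eq_finrank_of_separates hs) hneg z₀ c hz P hc
  rw [card_orbit_eq_jOrder hneg htf] at htO
  have hpos : 0 < LevelOne.jOrder z₀ := by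
    rcases jOrder_cases z₀ with h | h | h <;> omega
  have ht1 : t = 1 := by
    have : t * LevelOne.jOrder z₀ = 1 * LevelOne.jOrder z₀ := by rw [htO, one_mul]
    exact Nat.eq_of_mul_eq_mul_right hpos this
  refine ⟨g⁻¹ • z₀, ?_, ?_⟩
  · intro h
    rw [hPg, A.mem_center_mk]
    rfl
  · intro a ha
    have := ht a ha
    rw [Wp.wh0Chart_ev, ht1, one_mul] at this
    exact this

end Dict

end Fermat.Agent.S48lib.X1.Chart
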