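import Mathlib
import Fermat.Agent.ProgramR.Counting.CuspsGroup

/-!
S48lib / X1 / Chart / Width (helper9, block P3).

PARAM port of `ProgramR/CuspLocal/Width` from `Γ₀(N)` to an arbitrary subgroup `Γ ≤ SL(2,ℤ)` of
level `M` (`Γ(M) ≤ Γ`): the width of the left coset `x = g Γ` is the size of its `⟨T⟩`-orbit; all
widths divide `M`.
-/

set_option autoImplicit false

namespace Fermat.Agent.S48lib.X1.Chart

open Matrix Matrix.SpecialLinearGroup CongruenceSubgroup
open scoped MatrixGroups ModularGroup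

theorem T_zpow_mem_Gamma (M : ℕ) : ModularGroup.T ^ (M : ℤ) ∈ Gamma M := by
  rw [Gamma_mem, ModularGroup.coe_T_zpow]
  simp

variable {Γ : Subgroup SL(2, ℤ)} {M : ℕ} (hlev : Gamma M ≤ Γ)
include hlev

theorem conj_T_zpow_mem (g : SL(2, ℤ)) :
    g⁻¹ * (ModularGroup.T ^ (M : ℤ) * g) ∈ Γ := by
  apply hlev
  have h := (Gamma_normal M).conj_mem _ (T_zpow_mem_Gamma M) g⁻¹
  rw [inv_inv, mul_assoc] at h
  exact h

/-- `T^M` fixes every left coset of `Γ`. -/
theorem T_zpow_smul_mk (g : SL(2, ℤ)) :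
    (ModularGroup.T ^ (M : ℤ)) • (QuotientGroup.mk g : SL(2, ℤ) ⧸ Γ) = QuotientGroup.mk g := by
  rw [MulAction.Quotient.smul_mk, smul_eq_mul, eq_comm, QuotientGroup.eq]
  exact conj_T_zpow_mem hlev g

omit hlev

variable (Γ)

/-- `T^w • (g Γ) = g Γ` iff `g⁻¹ T^w g ∈ Γ`. -/
theorem T_zpow_smul_mk_eq_iff (g : SL(2, ℤ)) (w : ℤ) :
    (ModularGroup.T ^ w) • (QuotientGroup.mk g : SL(2, ℤ) ⧸ Γ) = QuotientGroup.mk g ↔
      g⁻¹ * (ModularGroup.T ^ w * g) ∈ Γ := by
  rw [MulAction.Quotient.smul_mk, smul_eq_mul, eq_comm, QuotientGroup.eq]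

/-- The width of the cusp attached to a left coset of `Γ`. -/
noncomputable def width (x : SL(2, ℤ) ⧸ Γ) : ℕ := MulAction.period ModularGroup.T x

theorem T_pow_width_smul (x : SL(2, ℤ) ⧸ Γ) : ModularGroup.T ^ (width Γ x) • x = x :=
  MulAction.pow_period_smul _ _

theorem T_zpow_smul_eq_iff_width_dvd (x : SL(2, ℤ) ⧸ Γ) (k : ℤ) :
    ModularGroup.T ^ k • x = x ↔ (width Γ x : ℤ) ∣ k :=
  MulAction.zpow_smul_eq_iff_period_dvd

variable {Γ}

include hlev in
theorem width_dvd (x : SL(2, ℤ) ⧸ Γ) : width Γ x ∣ M := by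
  induction x using QuotientGroup.induction_on with
  | H g =>
    have h := (T_zpow_smul_eq_iff_width_dvd Γ (QuotientGroup.mk g) (M : ℤ)).mp
      (T_zpow_smul_mk hlev g)
    exact Int.natCast_dvd_natCast.mp h

include hlev in
theorem width_pos [NeZero M] (x : SL(2, ℤ) ⧸ Γ) : 0 < width Γ x :=
  Nat.pos_of_dvd_of_pos (width_dvd hlev x) (Nat.pos_of_ne_zero (NeZero.ne M))

theorem width_T_zpow_smul (x : SL(2, ℤ) ⧸ Γ) (k : ℤ) :
    width Γ (ModularGroup.T ^ k • x) = width Γ x := by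
  apply Nat.dvd_antisymm
  · have h : ModularGroup.T ^ (width Γ x : ℤ) • (ModularGroup.T ^ k • x) =
        ModularGroup.T ^ k • x := by
      rw [smul_smul, ← _root_.zpow_add, add_comm, _root_.zpow_add, ← smul_smul, zpow_natCast,
        T_pow_width_smul]
    exact Int.natCast_dvd_natCast.mp ((T_zpow_smul_eq_iff_width_dvd Γ _ _).mp h)
  · have h : ModularGroup.T ^ (width Γ (ModularGroup.T ^ k • x) : ℤ) • x = x := by
      have h1 := T_pow_width_smul Γ (ModularGroup.T ^ k • x)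
      rw [← zpow_natCast, smul_smul, ← _root_.zpow_add, add_comm, _root_.zpow_add, ← smul_smul] at h1
      exact smul_left_cancel _ h1
    exact Int.natCast_dvd_natCast.mp ((T_zpow_smul_eq_iff_width_dvd Γ _ _).mp h)

end Fermat.Agent.S48lib.X1.Chart
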