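import Mathlib
import Fermat.Agent.ProgramR.CuspLocal.JExp
import Fermat.Agent.ProgramR.CuspLocal.Regular
import Fermat.Agent.S48lib.X1.Chart.Width

/-!
S48lib / X1 / Chart / Cusp (helper9, block P3).

PARAM port of `ProgramR/CuspLocal/{Translate (section CuspExp), CuspExp, JExp, Regular}` from
`Γ₀(N)` to an arbitrary subgroup `Γ ≤ SL(2,ℤ)` of level `M` (`hlev : Γ(M) ≤ Γ`): the expansions
`cuspExp hlev g : WH0 Γ →+* ℂ((q_M))`, `q_M = exp(2πiz/M)`, of `h ∘ g⁻¹` at `i∞`.
-/

set_option autoImplicit false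

noncomputable section

open Complex Filter Function ModularForm
open UpperHalfPlane hiding I
open Matrix Matrix.SpecialLinearGroup CongruenceSubgroup OnePoint
open Fermat.Agent.ProgramR Fermat.Agent.ProgramR.CuspLocal
open scoped Real Topology Manifold MatrixGroups ModularGroup

namespace Fermat.Agent.S48lib.X1.Chart

local notation "𝕢" => Periodic.qParam

variable {Γ : Subgroup SL(2, ℤ)} {M : ℕ} [NeZero M] (hlev : CongruenceSubgroup.Gamma M ≤ Γ)

section CuspExp

/-- Translation by `g⁻¹` as a ring homomorphism into the ring of `M`-periodic holomorphic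
functions meromorphic at `i∞`. -/
def translateHom (g : SL(2, ℤ)) :
    ↥(WH0 Γ) →+* ↥(QExp.merRing (M : ℝ) (natCast_pos_real M)) where
  toFun h := ⟨slTranslate g h.1,
    exists_isMeroAtInfty_slTranslate (mem_WH0.mp h.2) g (NeZero.pos M) (conj_T_zpow_mem hlev g)⟩
  map_one' := rfl
  map_mul' _ _ := rfl
  map_zero' := rfl
  map_add' _ _ := rfl

@[simp] lemma coe_translateHom (g : SL(2, ℤ)) (h : ↥(WH0 Γ)) :
    ((translateHom hlev g h : ↥(QExp.merRing (M : ℝ) (natCast_pos_real M))) : ℍ → ℂ) =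
      slTranslate g h.1 := rfl

lemma translateHom_injective (g : SL(2, ℤ)) : Function.Injective (translateHom hlev g) := by
  intro h h' e
  apply Subtype.ext
  funext z
  have := congrFun (congrArg Subtype.val e) (g • z)
  simpa using this

/-- The expansion of `h ∈ WH0 Γ` at the cusp `g⁻¹ ∞`, as a Laurent series in
`q_M = exp(2πiz/M)`. -/
def cuspExp (g : SL(2, ℤ)) : ↥(WH0 Γ) →+* LaurentSeries ℂ :=
  (QExp.laurentExpHom (M : ℝ) (natCast_pos_real M)).comp (translateHom hlev g)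

lemma cuspExp_apply (g : SL(2, ℤ)) (h : ↥(WH0 Γ)) :
    cuspExp hlev g h = QExp.laurentExp (M : ℝ) (slTranslate g h.1) := rfl

lemma cuspExp_injective (g : SL(2, ℤ)) : Function.Injective (cuspExp hlev g) :=
  (QExp.laurentExpHom_injective (M : ℝ) (natCast_pos_real M)).comp (translateHom_injective hlev g)

/-- The expansion only depends on the left coset `g Γ`. -/
lemma cuspExp_mul_right (g : SL(2, ℤ)) {γ : SL(2, ℤ)} (hγ : γ ∈ Γ) :
    cuspExp hlev (g * γ) = cuspExp hlev g := by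
  ext1 h
  rw [cuspExp_apply, cuspExp_apply, slTranslate_mul_right (mem_WH0.mp h.2) g hγ]

lemma cuspExp_eq_of_mk_eq {g g' : SL(2, ℤ)}
    (e : (QuotientGroup.mk g : SL(2, ℤ) ⧸ Γ) = QuotientGroup.mk g') :
    cuspExp hlev g = cuspExp hlev g' := by
  have h := QuotientGroup.eq.mp e
  have : g' = g * (g⁻¹ * g') := by group
  rw [this, cuspExp_mul_right hlev g h]

/-- Constants expand to constants. -/
lemma cuspExp_algebraMap (g : SL(2, ℤ)) (c : ℂ) :
    cuspExp hlev g (algebraMap ℂ ↥(WH0 Γ) c) = HahnSeries.C c := by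
  rw [cuspExp_apply]
  have : slTranslate g (algebraMap ℂ ↥(WH0 Γ) c : ↥(WH0 Γ)).1 = fun _ => c := by
    funext z
    rfl
  rw [this, QExp.laurentExp_const (natCast_pos_real M)]

end CuspExp

section Orbits

/-- Coefficients of the expansion at `T^k g`. -/
theorem cuspExp_T_zpow_mul_coeff (g : SL(2, ℤ)) (k : ℤ) (h : ↥(WH0 Γ)) (n : ℤ) :
    (cuspExp hlev (ModularGroup.T ^ k * g) h).coeff n =
      twistFactor (M : ℝ) (-(k : ℝ)) ^ n * (cuspExp hlev g h).coeff n := by
  obtain ⟨m, hm⟩ := exists_isMeroAtInfty_slTranslate (mem_WH0.mp h.2) g (NeZero.pos M)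
    (conj_T_zpow_mem hlev g)
  have key := laurentExp_coeff_of_vadd (natCast_pos_real M) hm
    (mdifferentiable_slTranslate (ModularGroup.T ^ k * g) (mem_WH0.mp h.2).mdiff) (-(k : ℝ))
    (fun τ => slTranslate_T_zpow_mul g k h.1 τ)
  rw [cuspExp_apply, cuspExp_apply]
  exact key.2 n

/-- The order of the expansion is constant along `⟨T⟩`-orbits. -/
theorem cuspExp_T_zpow_mul_order (g : SL(2, ℤ)) (k : ℤ) (h : ↥(WH0 Γ)) :
    (cuspExp hlev (ModularGroup.T ^ k * g) h).order = (cuspExp hlev g h).order :=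
  order_eq_of_coeff_eq_mul (fun n => twistFactor (M : ℝ) (-(k : ℝ)) ^ n)
    (fun n => zpow_ne_zero n (twistFactor_ne_zero _ _)) (cuspExp_T_zpow_mul_coeff hlev g k h)

/-- Support of the expansion: if `g⁻¹ T^w g ∈ Γ` then only the exponents `n` with
`M ∣ w n` occur. -/
theorem cuspExp_coeff_eq_zero_of_not_dvd (g : SL(2, ℤ)) {w : ℤ}
    (hw : g⁻¹ * (ModularGroup.T ^ w * g) ∈ Γ) (h : ↥(WH0 Γ)) {n : ℤ}
    (hn : ¬ (M : ℤ) ∣ w * n) : (cuspExp hlev g h).coeff n = 0 := by
  have h1 := cuspExp_T_zpow_mul_coeff hlev g w h n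
  have h2 : cuspExp hlev (ModularGroup.T ^ w * g) = cuspExp hlev g := by
    have : ModularGroup.T ^ w * g = g * (g⁻¹ * (ModularGroup.T ^ w * g)) := by group
    rw [this, cuspExp_mul_right hlev g hw]
  rw [h2] at h1
  have h3 : twistFactor (M : ℝ) (-(w : ℝ)) ^ n ≠ 1 :=
    fun h => hn ((twistFactor_zpow_eq_one_iff M w n).mp h)
  by_contra h4
  apply h3
  have h5 : (twistFactor (M : ℝ) (-(w : ℝ)) ^ n - 1) * (cuspExp hlev g h).coeff n = 0 := by
    rw [sub_mul, one_mul, ← h1, sub_self]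
  rcases mul_eq_zero.mp h5 with h6 | h6
  · exact sub_eq_zero.mp h6
  · exact absurd h6 h4

/-- Support of the expansion in terms of the width `w` of the cusp: only exponents divisible by
`M / w` occur, i.e. the expansion is a Laurent series in `q_w = q_M^{M/w}`. -/
theorem cuspExp_coeff_eq_zero_of_not_dvd_width (g : SL(2, ℤ)) (h : ↥(WH0 Γ)) {n : ℤ}
    (hn : ¬ ((M / width Γ (QuotientGroup.mk g) : ℕ) : ℤ) ∣ n) : (cuspExp hlev g h).coeff n = 0 := by
  set w := width Γ (QuotientGroup.mk g) with hwdef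
  have hw : g⁻¹ * (ModularGroup.T ^ (w : ℤ) * g) ∈ Γ := by
    rw [← T_zpow_smul_mk_eq_iff, zpow_natCast]
    exact T_pow_width_smul Γ _
  refine cuspExp_coeff_eq_zero_of_not_dvd hlev g hw h ?_
  intro hdvd
  apply hn
  have hwN : w ∣ M := width_dvd hlev _
  have hwpos : 0 < w := width_pos hlev _
  obtain ⟨d, hd⟩ := hwN
  have hdiv : M / w = d := by rw [hd, Nat.mul_div_cancel_left d hwpos]
  rw [hdiv]
  have hcast : (M : ℤ) = (w : ℤ) * (d : ℤ) := by exact_mod_cast hd
  rw [hcast] at hdvd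
  exact (mul_dvd_mul_iff_left (by exact_mod_cast hwpos.ne')).mp hdvd

end Orbits

section JExp

variable (Γ) in
/-- `j` as an element of `WH0 Γ`. -/
def jWH0 : ↥(WH0 Γ) := ⟨LevelOne.jInv, LevelOne.jInv_mem_WH0 Γ⟩

/-- The leading coefficient of `j` in `q_M` is at `q_M^{-M}` and equals one. -/
theorem cuspExp_jInv_coeff (g : SL(2, ℤ)) : (cuspExp hlev g (jWH0 Γ)).coeff (-(M : ℤ)) = 1 := by
  have hm := isMeroAtInfty_jInv M
  have hb := hm.isHolPerBdd (natCast_pos_real M)
  rw [cuspExp_apply]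
  show (QExp.laurentExp (M : ℝ) (slTranslate g LevelOne.jInv)).coeff (-(M : ℤ)) = 1
  rw [slTranslate_jInv, QExp.laurentExp_coeff (natCast_pos_real M) hm, if_pos (by omega)]
  have h0 : (-(M : ℤ) + (M : ℤ)).toNat = 0 := by simp
  rw [h0, qExpansion_coeff_zero (natCast_pos_real M) (hb.analyticAt (natCast_pos_real M))
    hb.periodic]
  exact (tendsto_qPow_mul_jInv M).limUnder_eq

theorem cuspExp_jInv_coeff_of_lt (g : SL(2, ℤ)) {n : ℤ} (hn : n < -(M : ℤ)) :
    (cuspExp hlev g (jWH0 Γ)).coeff n = 0 := by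
  rw [cuspExp_apply]
  show (QExp.laurentExp (M : ℝ) (slTranslate g LevelOne.jInv)).coeff n = 0
  rw [slTranslate_jInv]
  exact QExp.laurentExp_coeff_of_lt (natCast_pos_real M) (isMeroAtInfty_jInv M) hn

/-- `j` has order exactly `-M` in `q_M` at every cusp. -/
theorem cuspExp_jInv_order (g : SL(2, ℤ)) : (cuspExp hlev g (jWH0 Γ)).order = -(M : ℤ) := by
  have h1 : (cuspExp hlev g (jWH0 Γ)).coeff (-(M : ℤ)) ≠ 0 := by
    rw [cuspExp_jInv_coeff]
    exact one_ne_zero
  have hne : cuspExp hlev g (jWH0 Γ) ≠ 0 := by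
    intro h0
    rw [h0] at h1
    simp at h1
  apply le_antisymm (HahnSeries.order_le_of_coeff_ne_zero h1)
  by_contra hlt
  push Not at hlt
  exact hne (HahnSeries.coeff_order_eq_zero.mp (cuspExp_jInv_coeff_of_lt hlev g hlt))

end JExp

section Regular

/-- If the expansion at `g` has non-negative order then `h ∘ g⁻¹` is bounded at `i∞`. -/
theorem isBoundedAtImInfty_slTranslate_of_order_nonneg (g : SL(2, ℤ))
    (h : ↥(WH0 Γ)) (hreg : 0 ≤ (cuspExp hlev g h).order) :
    IsBoundedAtImInfty (slTranslate g h.1) := by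
  obtain ⟨m, hm⟩ := exists_isMeroAtInfty_slTranslate (mem_WH0.mp h.2) g (NeZero.pos M)
    (conj_T_zpow_mem hlev g)
  have h0 : QExp.IsMeroAtInfty (M : ℝ) 0 (slTranslate g h.1) := by
    refine QExp.isMeroAtInfty_of_coeff_eq_zero (natCast_pos_real M) hm ?_
    intro n hn
    have hn' : n < (cuspExp hlev g h).order := by
      simp only [Nat.cast_zero, neg_zero] at hn
      omega
    exact HahnSeries.coeff_eq_zero_of_lt_order hn'
  have := h0.bdd
  rwa [QExp.qPow_zero, one_mul] at this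

variable [Γ.FiniteIndex]

/-- The weight zero modular form attached to a function regular at all cusps. -/
def regularForm (h : ↥(WH0 Γ)) (hreg : ∀ g : SL(2, ℤ), 0 ≤ (cuspExp hlev g h).order) :
    ModularForm ((Γ : Subgroup SL(2, ℤ)) : Subgroup (GL (Fin 2) ℝ)) 0 where
  toFun := h.1
  slash_action_eq' := by
    rintro _ ⟨γ, hγ, rfl⟩
    show h.1 ∣[(0 : ℤ)] γ = h.1
    rw [slash_zero_eq_slTranslate]
    funext z
    rw [slTranslate_apply, inv_inv]
    exact (mem_WH0.mp h.2).smul_eq γ hγ z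
  holo' := (mem_WH0.mp h.2).mdiff
  bdd_at_cusps' {c} hc := by
    rw [Subgroup.IsArithmetic.isCusp_iff_isCusp_SL2Z] at hc
    rw [isBoundedAt_iff_forall_SL2Z hc]
    intro γ _
    rw [slash_zero_eq_slTranslate]
    exact isBoundedAtImInfty_slTranslate_of_order_nonneg hlev γ⁻¹ h (hreg γ⁻¹)

/-- A weakly holomorphic `Γ`-invariant function which is regular at all cusps is constant. -/
theorem eq_const_of_forall_order_nonneg (h : ↥(WH0 Γ))
    (hreg : ∀ g : SL(2, ℤ), 0 ≤ (cuspExp hlev g h).order) :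
    ∃ c : ℂ, h = algebraMap ℂ ↥(WH0 Γ) c := by
  obtain ⟨c, hc⟩ := ModularForm.eq_const_of_weight_zero (regularForm hlev h hreg)
  refine ⟨c, Subtype.ext ?_⟩
  funext z
  have := congrFun hc z
  exact this

end Regular

end Fermat.Agent.S48lib.X1.Chart
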