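import Mathlib
import Fermat.Agent.ProgramR.CuspLocal.InftyOrbit
import Fermat.Agent.ProgramR.Analytic.WH0Dedekind
import Fermat.Agent.ProgramR.Analytic.Division
import Fermat.Agent.S48lib.X1.Chart.Cusp
import Fermat.Agent.S48lib.X1.Wp.ChartGen

/-!
S48lib / X1 / Chart / Infty (helper9, block P3).

PARAM port of `ProgramR/CuspLocal/{InftyDict, InftyFinal}` from `Γ₀(N)` to an arbitrary subgroup
`Γ ≤ SL(2,ℤ)` of finite index and level `M` (`hlev : Γ(M) ≤ Γ`) with a separating function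
(`hs : Wp.Separates Γ h₀`, helper7): the dictionary at infinity

* `cuspPrime`, `cuspPrime_eq_iff`, `exists_cuspPrime_eq`, `ramificationIdx_cuspPrime`,
* `order_cuspExp` : `ord (cuspExp hlev g a) = (M / width) * ordV P_g a`,
* `const_of_mem_range_of_mem_range` : `WH0 Γ ∩ Binf = ℂ`, `dinf`, `dinf'`.
-/

set_option autoImplicit false
set_option linter.unusedSectionVars false
set_option linter.style.haveILetI false

noncomputable section

open Polynomial Module HahnSeries IsDedekindDomain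
open Matrix Matrix.SpecialLinearGroup CongruenceSubgroup
open scoped MatrixGroups ModularGroup
open Fermat.Agent.ProgramR Fermat.Agent.ProgramR.CuspLocal
open Fermat.Agent.ProgramR.RR Fermat.Agent.ProgramR.Alg

namespace Fermat.Agent.S48lib.X1.Chart

section Dict


variable {Γ : Subgroup SL(2, ℤ)} {M : ℕ} [NeZero M] (hlev : CongruenceSubgroup.Gamma M ≤ Γ)

lemma cuspExp_jWH0 (g : SL(2, ℤ)) : cuspExp hlev g (jWH0 Γ) = cuspExp hlev 1 (jWH0 Γ) := by
  rw [cuspExp_apply, cuspExp_apply]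
  show QExp.laurentExp (M : ℝ) (slTranslate g LevelOne.jInv) =
    QExp.laurentExp (M : ℝ) (slTranslate 1 LevelOne.jInv)
  rw [slTranslate_jInv, slTranslate_jInv]

lemma cuspExp_out_mk (g : SL(2, ℤ)) :
    cuspExp hlev (QuotientGroup.mk g : SL(2, ℤ) ⧸ Γ).out = cuspExp hlev g :=
  cuspExp_eq_of_mk_eq hlev (QuotientGroup.out_eq' _)

omit [NeZero M] in
/-- the size of the `⟨T⟩`-orbit of a coset is its width. -/
lemma orbSize_zpowers_T (x : SL(2, ℤ) ⧸ Γ) :
    CenterData.orbSize (Subgroup.zpowers ModularGroup.T) x = width Γ x := by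
  have h := Nat.card_congr (MulAction.orbitZPowersEquiv ModularGroup.T x)
  rw [Nat.card_zmod] at h
  rw [CenterData.orbSize, width, MulAction.period_eq_minimalPeriod]
  exact h

section

variable [Fintype (SL(2, ℤ) ⧸ Γ)]
  (hj : algebraMap ℂ[X] ↥(WH0 Γ) X = jWH0 Γ)
  (hsep : ∀ g g' : SL(2, ℤ), cuspExp hlev g = cuspExp hlev g' →
    (QuotientGroup.mk g : SL(2, ℤ) ⧸ Γ) = QuotientGroup.mk g')

/-- the family of cusp expansions of `WH0 Γ`, indexed by the cosets of `Γ`. -/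
def cuspFamily : LaurentFamily ℂ ↥(WH0 Γ) (SL(2, ℤ) ⧸ Γ) where
  e x := cuspExp hlev x.out
  e_inj x := cuspExp_injective hlev x.out
  e_C x c := cuspExp_algebraMap hlev x.out c
  J := cuspExp hlev 1 (jWH0 Γ)
  e_X x := by rw [hj, cuspExp_jWH0]
  J_order := by
    rw [cuspExp_jInv_order]
    have := NeZero.pos M
    omega
  sep := by
    intro x y hxy
    have := hsep x.out y.out hxy
    rwa [QuotientGroup.out_eq', QuotientGroup.out_eq'] at this

lemma cuspFamily_e_mk (g : SL(2, ℤ)) :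
    (cuspFamily hlev hj hsep).e (QuotientGroup.mk g) = cuspExp hlev g := cuspExp_out_mk hlev g

lemma cuspFamily_poleOrder : (cuspFamily hlev hj hsep).poleOrder = M := by
  have h := (cuspFamily hlev hj hsep).poleOrder_spec
  have h2 : (cuspFamily hlev hj hsep).J.order = -(M : ℤ) := cuspExp_jInv_order hlev 1
  rw [h2] at h
  omega

lemma cuspFamily_order_smul (g : Subgroup.zpowers ModularGroup.T) (x : SL(2, ℤ) ⧸ Γ)
    (b : ↥(WH0 Γ)) :
    ((cuspFamily hlev hj hsep).e (g • x) b).order = ((cuspFamily hlev hj hsep).e x b).order := by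
  obtain ⟨g, hg⟩ := g
  obtain ⟨k, rfl⟩ := Subgroup.mem_zpowers_iff.mp hg
  induction x using QuotientGroup.induction_on with
  | H h =>
    have h1 : (⟨ModularGroup.T ^ k, hg⟩ : Subgroup.zpowers ModularGroup.T) •
        (QuotientGroup.mk h : SL(2, ℤ) ⧸ Γ) = QuotientGroup.mk (ModularGroup.T ^ k * h) := by
      show (ModularGroup.T ^ k) • (QuotientGroup.mk h : SL(2, ℤ) ⧸ Γ) = _
      rw [MulAction.Quotient.smul_mk, smul_eq_mul]
    rw [h1, cuspFamily_e_mk, cuspFamily_e_mk, cuspExp_T_zpow_mul_order]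

lemma cuspFamily_orbSize_dvd (x : SL(2, ℤ) ⧸ Γ) :
    CenterData.orbSize (Subgroup.zpowers ModularGroup.T) x ∣ (cuspFamily hlev hj hsep).poleOrder := by
  rw [orbSize_zpowers_T, cuspFamily_poleOrder]
  exact width_dvd hlev x

lemma cuspFamily_supp (x : SL(2, ℤ) ⧸ Γ) (b : ↥(WH0 Γ)) (n : ℤ)
    (hn : ¬ (((cuspFamily hlev hj hsep).poleOrder /
      CenterData.orbSize (Subgroup.zpowers ModularGroup.T) x : ℕ) : ℤ) ∣ n) :
    ((cuspFamily hlev hj hsep).e x b).coeff n = 0 := by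
  rw [orbSize_zpowers_T, cuspFamily_poleOrder] at hn
  induction x using QuotientGroup.induction_on with
  | H h =>
    rw [cuspFamily_e_mk]
    exact cuspExp_coeff_eq_zero_of_not_dvd_width hlev h b hn

variable (hrank : finrank ℂ[X] ↥(WH0 Γ) = Nat.card (SL(2, ℤ) ⧸ Γ))

/-- the prime of the chart at infinity attached to the coset `x` (the centre of the cusp
expansion). -/
def cuspPrime (x : SL(2, ℤ) ⧸ Γ) : HeightOneSpectrum (Binf ℂ ↥(WH0 Γ)) :=
  ⟨(cuspFamily hlev hj hsep).centerData.center x, (cuspFamily hlev hj hsep).centerData.center_isPrime x,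
    (cuspFamily hlev hj hsep).centerData.center_ne_bot (cuspFamily hlev hj hsep).base_ne_bot x⟩

include hrank in
/-- two cosets give the same prime at infinity iff they are in the same `⟨T⟩`-orbit. -/
theorem cuspPrime_eq_iff (x y : SL(2, ℤ) ⧸ Γ) :
    cuspPrime hlev hj hsep y = cuspPrime hlev hj hsep x ↔
      y ∈ MulAction.orbit (Subgroup.zpowers ModularGroup.T) x := by
  rw [← (cuspFamily hlev hj hsep).center_eq_iff
    (by rw [hrank, Nat.card_eq_fintype_card]) (cuspFamily_order_smul hlev hj hsep)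
    (cuspFamily_orbSize_dvd hlev hj hsep) (cuspFamily_supp hlev hj hsep) x y]
  constructor
  · intro h
    exact congrArg HeightOneSpectrum.asIdeal h
  · intro h
    exact HeightOneSpectrum.ext h

include hrank in
/-- every prime of the chart at infinity is the prime of a cusp. -/
theorem exists_cuspPrime_eq (P : HeightOneSpectrum (Binf ℂ ↥(WH0 Γ))) :
    ∃ g : SL(2, ℤ), cuspPrime hlev hj hsep (QuotientGroup.mk g) = P := by
  obtain ⟨x, hx⟩ := (cuspFamily hlev hj hsep).exists_center_eq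
    (by rw [hrank, Nat.card_eq_fintype_card]) P
  induction x using QuotientGroup.induction_on with
  | H g => exact ⟨g, HeightOneSpectrum.ext hx⟩

include hrank in
/-- the ramification index of the prime of a cusp is the width of the cusp. -/
theorem ramificationIdx_cuspPrime (x : SL(2, ℤ) ⧸ Γ) :
    (cuspPrime hlev hj hsep x).asIdeal.ramificationIdx (Ainf ℂ) = width Γ x := by
  rw [← orbSize_zpowers_T]
  exact (cuspFamily hlev hj hsep).ramificationIdx_center
    (by rw [hrank, Nat.card_eq_fintype_card]) (cuspFamily_order_smul hlev hj hsep)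
    (cuspFamily_orbSize_dvd hlev hj hsep) (cuspFamily_supp hlev hj hsep) x

/-- the extension of `cuspExp hlev g` to the fraction field `FF ℂ B_N`. -/
def cuspExpFF (g : SL(2, ℤ)) : FF ℂ ↥(WH0 Γ) →+* LaurentSeries ℂ :=
  (cuspFamily hlev hj hsep).expFF (QuotientGroup.mk g)

lemma cuspExpFF_algebraMap (g : SL(2, ℤ)) (a : ↥(WH0 Γ)) :
    cuspExpFF hlev hj hsep g (algebraMap ↥(WH0 Γ) (FF ℂ ↥(WH0 Γ)) a) =
      cuspExp hlev g a := by
  rw [cuspExpFF, LaurentFamily.expFF_algebraMap, cuspFamily_e_mk]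

include hrank in
/-- **(Dinf′), fraction field form**: the order of the cusp expansion at `g` is `M / width` times
the valuation at the prime of the cusp. -/
theorem order_cuspExpFF (g : SL(2, ℤ)) {f : FF ℂ ↥(WH0 Γ)} (hf : f ≠ 0) :
    (cuspExpFF hlev hj hsep g f).order =
      ((M / width Γ (QuotientGroup.mk g) : ℕ) : ℤ) *
        ordV (cuspPrime hlev hj hsep (QuotientGroup.mk g)) f := by
  have h := (cuspFamily hlev hj hsep).order_expFF_eq_mul_ordV
    (by rw [hrank, Nat.card_eq_fintype_card]) (cuspFamily_order_smul hlev hj hsep)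
    (cuspFamily_orbSize_dvd hlev hj hsep) (cuspFamily_supp hlev hj hsep) (QuotientGroup.mk g)
    (cuspPrime hlev hj hsep (QuotientGroup.mk g)) rfl hf
  rwa [orbSize_zpowers_T, cuspFamily_poleOrder] at h

include hrank in
/-- **(Dinf′)**: for `a ∈ B_N`, `ord (cuspExp hlev g a) = (M / width) * ordV P_g a`. -/
theorem order_cuspExp (g : SL(2, ℤ)) {a : ↥(WH0 Γ)} (ha : a ≠ 0) :
    (cuspExp hlev g a).order =
      ((M / width Γ (QuotientGroup.mk g) : ℕ) : ℤ) *
        ordV (cuspPrime hlev hj hsep (QuotientGroup.mk g))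
          (algebraMap ↥(WH0 Γ) (FF ℂ ↥(WH0 Γ)) a) := by
  rw [← cuspExpFF_algebraMap hlev hj hsep g a]
  apply order_cuspExpFF hlev hj hsep hrank
  exact fun h => ha (IsFractionRing.injective ↥(WH0 Γ) (FF ℂ ↥(WH0 Γ))
    (h.trans (map_zero _).symm))

include hlev in
lemma div_width_pos (x : SL(2, ℤ) ⧸ Γ) : 0 < M / width Γ x :=
  Nat.div_pos (Nat.le_of_dvd (NeZero.pos M) (width_dvd hlev x)) (width_pos hlev x)

include hj hsep hrank in
/-- **(Dinf′)** in the shape of the plan: every coset has a prime of `Binf` and a positive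
multiplier. -/
theorem exists_prime_forall_order_eq (g : SL(2, ℤ)) :
    ∃ P : HeightOneSpectrum (Binf ℂ ↥(WH0 Γ)), ∃ s : ℕ, 0 < s ∧
      ∀ a : ↥(WH0 Γ), a ≠ 0 → (cuspExp hlev g a).order =
        (s : ℤ) * ordV P (algebraMap ↥(WH0 Γ) (FF ℂ ↥(WH0 Γ)) a) :=
  ⟨cuspPrime hlev hj hsep (QuotientGroup.mk g), M / width Γ (QuotientGroup.mk g),
    div_width_pos hlev _, fun _ ha => order_cuspExp hlev hj hsep hrank g ha⟩

include hj hsep hrank in
/-- **(Dinf)**: every prime of `Binf` is the prime of a cusp, with a positive multiplier. -/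
theorem exists_coset_forall_order_eq (P : HeightOneSpectrum (Binf ℂ ↥(WH0 Γ))) :
    ∃ g : SL(2, ℤ), ∃ s : ℕ, 0 < s ∧
      ∀ a : ↥(WH0 Γ), a ≠ 0 → (cuspExp hlev g a).order =
        (s : ℤ) * ordV P (algebraMap ↥(WH0 Γ) (FF ℂ ↥(WH0 Γ)) a) := by
  obtain ⟨g, hg⟩ := exists_cuspPrime_eq hlev hj hsep hrank P
  refine ⟨g, M / width Γ (QuotientGroup.mk g), div_width_pos hlev _, fun a ha => ?_⟩
  rw [← hg]
  exact order_cuspExp hlev hj hsep hrank g ha

include hrank in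
/-- the valuation of `j` at the prime of a cusp is minus the width. -/
theorem ordV_cuspPrime_j (g : SL(2, ℤ)) :
    ordV (cuspPrime hlev hj hsep (QuotientGroup.mk g))
      (algebraMap ↥(WH0 Γ) (FF ℂ ↥(WH0 Γ)) (jWH0 Γ)) =
        -(width Γ (QuotientGroup.mk g) : ℤ) := by
  have hj0 : jWH0 Γ ≠ 0 := by
    intro h0
    have h1 := cuspExp_jInv_order hlev 1
    rw [h0, map_zero, HahnSeries.order_zero] at h1
    have := NeZero.pos M
    omega
  have h := order_cuspExp hlev hj hsep hrank g hj0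
  rw [cuspExp_jInv_order] at h
  obtain ⟨q, hq⟩ := width_dvd hlev (QuotientGroup.mk g)
  have hw := width_pos hlev (QuotientGroup.mk g)
  have hdiv : M / width Γ (QuotientGroup.mk g) = q := Nat.div_eq_of_eq_mul_right hw hq
  rw [hdiv] at h
  have hq0 : (q : ℤ) ≠ 0 := by
    intro h0
    have : q = 0 := by exact_mod_cast h0
    rw [this, mul_zero] at hq
    exact (NeZero.ne M) hq
  have hN : (M : ℤ) = (width Γ (QuotientGroup.mk g) : ℤ) * q := by exact_mod_cast hq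
  rw [hN] at h
  have h2 : (q : ℤ) * ordV (cuspPrime hlev hj hsep (QuotientGroup.mk g))
      (algebraMap ↥(WH0 Γ) (FF ℂ ↥(WH0 Γ)) (jWH0 Γ)) =
      (q : ℤ) * (-(width Γ (QuotientGroup.mk g) : ℤ)) := by
    rw [← h]; ring
  exact mul_left_cancel₀ hq0 h2

end


end Dict

section Final


variable {Γ : Subgroup SL(2, ℤ)} [Fintype (SL(2, ℤ) ⧸ Γ)] [Γ.FiniteIndex] {M : ℕ} [NeZero M]
  (hlev : CongruenceSubgroup.Gamma M ≤ Γ) {h₀ : WH0 Γ} (hs : Wp.Separates Γ h₀)

omit [Fintype (SL(2, ℤ) ⧸ Γ)] [Γ.FiniteIndex] in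
lemma algebraMap_X_eq_jWH0 : algebraMap ℂ[X] ↥(WH0 Γ) X = jWH0 Γ := by
  rw [WH0.algebraMap_poly, Polynomial.aeval_X]
  rfl

omit [Fintype (SL(2, ℤ) ⧸ Γ)] [Γ.FiniteIndex] in
include hs in
/-- distinct cosets have distinct cusp expansions (via a separating function). -/
lemma cuspExp_sep (g g' : SL(2, ℤ)) (h : cuspExp hlev g = cuspExp hlev g') :
    (QuotientGroup.mk g : SL(2, ℤ) ⧸ Γ) = QuotientGroup.mk g' := by
  rw [QuotientGroup.eq]
  apply hs
  have h1 : cuspExp hlev g h₀ = cuspExp hlev g' h₀ := by rw [h]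
  have h2 : translateHom hlev g h₀ = translateHom hlev g' h₀ :=
    QExp.laurentExpHom_injective (M : ℝ) (natCast_pos_real M) h1
  apply Hol.ext
  intro z
  exact congrFun (congrArg Subtype.val h2) z

omit [Γ.FiniteIndex] in
include hs in
lemma finrank_eq_card_coset :
    finrank ℂ[X] ↥(WH0 Γ) = Nat.card (SL(2, ℤ) ⧸ Γ) := by
  rw [Nat.card_eq_fintype_card, Wp.card_eq_finrank_of_separates hs]

/-- the family of cusp expansions of `WH0 Γ`. -/
abbrev gammaFamily : LaurentFamily ℂ ↥(WH0 Γ) (SL(2, ℤ) ⧸ Γ) :=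
  cuspFamily hlev algebraMap_X_eq_jWH0 (cuspExp_sep hlev hs)

include hs in
/-- an element of `WH0 Γ` which is integral over `Ainf` is regular at every cusp. -/
lemma order_cuspExp_nonneg_of_mem_Binf (b : ↥(WH0 Γ))
    (hb : algebraMap ↥(WH0 Γ) (FF ℂ ↥(WH0 Γ)) b ∈ Binf ℂ ↥(WH0 Γ))
    (g : SL(2, ℤ)) : 0 ≤ (cuspExp hlev g b).order := by
  have h := (gammaFamily hlev hs).order_expFF_nonneg (QuotientGroup.mk g) ⟨_, hb⟩
  rwa [LaurentFamily.expFF_algebraMap, cuspFamily_e_mk] at h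

include hlev hs in
/-- **`hconst`**: `WH0 Γ ∩ Binf = ℂ`. -/
theorem const_of_mem_range_of_mem_range (h : FF ℂ ↥(WH0 Γ))
    (h1 : h ∈ Set.range (algebraMap ↥(WH0 Γ) (FF ℂ ↥(WH0 Γ))))
    (h2 : h ∈ Set.range (algebraMap (Binf ℂ ↥(WH0 Γ)) (FF ℂ ↥(WH0 Γ)))) :
    h ∈ Set.range (algebraMap ℂ (FF ℂ ↥(WH0 Γ))) := by
  obtain ⟨b, rfl⟩ := h1
  obtain ⟨s, hs'⟩ := h2
  have hb : algebraMap ↥(WH0 Γ) (FF ℂ ↥(WH0 Γ)) b ∈
      Binf ℂ ↥(WH0 Γ) := by
    rw [← hs']
    exact s.2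
  obtain ⟨c, hc⟩ := eq_const_of_forall_order_nonneg hlev b
    (order_cuspExp_nonneg_of_mem_Binf hlev hs b hb)
  refine ⟨c, ?_⟩
  rw [hc, ← IsScalarTower.algebraMap_apply]

/-- the prime of the chart at infinity attached to a coset. -/
abbrev gammaCuspPrime (x : SL(2, ℤ) ⧸ Γ) :
    HeightOneSpectrum (Binf ℂ ↥(WH0 Γ)) :=
  cuspPrime hlev algebraMap_X_eq_jWH0 (cuspExp_sep hlev hs) x

/-- **(Dinf′), one element**: `ord_g a = (M / width) * ordV P_g a`. -/
theorem order_cuspExp_Gamma (g : SL(2, ℤ)) {a : ↥(WH0 Γ)} (ha : a ≠ 0) :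
    (cuspExp hlev g a).order =
      ((M / width Γ (QuotientGroup.mk g) : ℕ) : ℤ) *
        ordV (gammaCuspPrime hlev hs (QuotientGroup.mk g))
          (algebraMap ↥(WH0 Γ) (FF ℂ ↥(WH0 Γ)) a) :=
  order_cuspExp hlev algebraMap_X_eq_jWH0 (cuspExp_sep hlev hs) (finrank_eq_card_coset hs) g ha

theorem ramificationIdx_gammaCuspPrime (x : SL(2, ℤ) ⧸ Γ) :
    (gammaCuspPrime hlev hs x).asIdeal.ramificationIdx (Ainf ℂ) = width Γ x :=
  ramificationIdx_cuspPrime hlev algebraMap_X_eq_jWH0 (cuspExp_sep hlev hs)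
    (finrank_eq_card_coset hs) x

theorem gammaCuspPrime_eq_iff (x y : SL(2, ℤ) ⧸ Γ) :
    gammaCuspPrime hlev hs y = gammaCuspPrime hlev hs x ↔
      y ∈ MulAction.orbit (Subgroup.zpowers ModularGroup.T) x :=
  cuspPrime_eq_iff hlev algebraMap_X_eq_jWH0 (cuspExp_sep hlev hs) (finrank_eq_card_coset hs) x y

theorem exists_gammaCuspPrime_eq (P : HeightOneSpectrum (Binf ℂ ↥(WH0 Γ))) :
    ∃ g : SL(2, ℤ), gammaCuspPrime hlev hs (QuotientGroup.mk g) = P :=
  exists_cuspPrime_eq hlev algebraMap_X_eq_jWH0 (cuspExp_sep hlev hs) (finrank_eq_card_coset hs) P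

theorem ordV_gammaCuspPrime_j (g : SL(2, ℤ)) :
    ordV (gammaCuspPrime hlev hs (QuotientGroup.mk g))
      (algebraMap ↥(WH0 Γ) (FF ℂ ↥(WH0 Γ)) (jWH0 Γ)) =
        -(width Γ (QuotientGroup.mk g) : ℤ) :=
  ordV_cuspPrime_j hlev algebraMap_X_eq_jWH0 (cuspExp_sep hlev hs) (finrank_eq_card_coset hs) g

/-- two-element form of the order formula at a given prime. -/
lemma mul_ordV_div_eq (Q : HeightOneSpectrum (Binf ℂ ↥(WH0 Γ))) (g : SL(2, ℤ))
    (hQ : gammaCuspPrime hlev hs (QuotientGroup.mk g) = Q) (a b : ↥(WH0 Γ)) (ha : a ≠ 0)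
    (hb : b ≠ 0) :
    ((M / width Γ (QuotientGroup.mk g) : ℕ) : ℤ) *
      ordV Q (algebraMap ↥(WH0 Γ) (FF ℂ ↥(WH0 Γ)) a /
        algebraMap ↥(WH0 Γ) (FF ℂ ↥(WH0 Γ)) b) =
      (cuspExp hlev g a).order - (cuspExp hlev g b).order := by
  have ha' : algebraMap ↥(WH0 Γ) (FF ℂ ↥(WH0 Γ)) a ≠ 0 := fun h =>
    ha (IsFractionRing.injective ↥(WH0 Γ) (FF ℂ ↥(WH0 Γ))
      (h.trans (map_zero _).symm))
  have hb' : algebraMap ↥(WH0 Γ) (FF ℂ ↥(WH0 Γ)) b ≠ 0 := fun h =>
    hb (IsFractionRing.injective ↥(WH0 Γ) (FF ℂ ↥(WH0 Γ))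
      (h.trans (map_zero _).symm))
  rw [order_cuspExp_Gamma hlev hs g ha, order_cuspExp_Gamma hlev hs g hb, hQ, div_eq_mul_inv,
    ordV_mul Q ha' (inv_ne_zero hb'), ordV_inv]
  ring

include hs in
/-- **(Dinf)**: every prime of the chart at infinity comes from a cusp. -/
theorem dinf (Q : HeightOneSpectrum (Binf ℂ ↥(WH0 Γ))) :
    ∃ (g : SL(2, ℤ)) (s : ℕ), 0 < s ∧ ∀ a b : ↥(WH0 Γ), a ≠ 0 → b ≠ 0 →
      (s : ℤ) * ordV Q (algebraMap ↥(WH0 Γ) (FF ℂ ↥(WH0 Γ)) a /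
        algebraMap ↥(WH0 Γ) (FF ℂ ↥(WH0 Γ)) b) =
      (cuspExp hlev g a).order - (cuspExp hlev g b).order := by
  obtain ⟨g, hg⟩ := exists_gammaCuspPrime_eq hlev hs Q
  exact ⟨g, M / width Γ (QuotientGroup.mk g), div_width_pos hlev _,
    fun a b ha hb => mul_ordV_div_eq hlev hs Q g hg a b ha hb⟩

include hs in
/-- **(Dinf′)**: every cusp gives a prime of the chart at infinity. -/
theorem dinf' (g : SL(2, ℤ)) :
    ∃ (Q : HeightOneSpectrum (Binf ℂ ↥(WH0 Γ))) (s : ℕ), 0 < s ∧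
      ∀ a b : ↥(WH0 Γ), a ≠ 0 → b ≠ 0 →
      (s : ℤ) * ordV Q (algebraMap ↥(WH0 Γ) (FF ℂ ↥(WH0 Γ)) a /
        algebraMap ↥(WH0 Γ) (FF ℂ ↥(WH0 Γ)) b) =
      (cuspExp hlev g a).order - (cuspExp hlev g b).order :=
  ⟨gammaCuspPrime hlev hs (QuotientGroup.mk g), M / width Γ (QuotientGroup.mk g),
    div_width_pos hlev _, fun a b ha hb => mul_ordV_div_eq hlev hs _ g rfl a b ha hb⟩

end Final

end Fermat.Agent.S48lib.X1.Chart
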